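import Fermat.Agent.LT.A2.H798.CpxSpec

/-!
# Row LT, tower A2, leaf A2.03.1.1.10.08 `CX798.CharFormC` (helper820)

OFF-MAIN.  The continuous unitary characters of `ℂ` are the `ψ_c`.

A continuous `f : ℝ → ℂ` with `f (s + t) = f s * f t`, `f 0 = 1` is an exponential: with
`F t = ∫₀ᵗ f`, some `F δ ≠ 0` (as `F' 0 = 1`), and `f t * F δ = F (t + δ) - F t`, so `f` is
differentiable with `f' = a f`, `a = (f δ - 1) / F δ`; hence `f t * exp (-a t)` is constant.
If `‖f‖ = 1` then `Re a = 0`.  Apply this to `t ↦ χ t` and `t ↦ χ (t i)`.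
-/

set_option autoImplicit false

open MeasureTheory intervalIntegral

namespace Fermat.Agent.LT.A2.H820

/-- A continuous multiplicative function `ℝ → ℂ` with `f 0 ≠ 0`-type normalisation is an
exponential. -/
theorem exists_exp_of_mul820 (f : ℝ → ℂ) (hf : Continuous f)
    (hadd : ∀ s t : ℝ, f (s + t) = f s * f t) (h0 : f 0 = 1) :
    ∃ a : ℂ, ∀ t : ℝ, f t = Complex.exp (a * t) := by
  -- the primitive
  set F : ℝ → ℂ := fun t => ∫ s in (0 : ℝ)..t, f s with hF
  have hFd : ∀ t : ℝ, HasDerivAt F (f t) t := fun t =>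
    (hf.integral_hasStrictDerivAt 0 t).hasDerivAt
  -- some value of the primitive is nonzero
  obtain ⟨δ, hδ⟩ : ∃ δ : ℝ, F δ ≠ 0 := by
    by_contra hcon
    have hcon : ∀ δ : ℝ, F δ = 0 := fun δ => by
      by_contra h
      exact hcon ⟨δ, h⟩
    have hF0 : F = fun _ => (0 : ℂ) := funext hcon
    have h1 : HasDerivAt F (f 0) 0 := hFd 0
    rw [hF0] at h1
    have h2 : HasDerivAt (fun _ : ℝ => (0 : ℂ)) 0 0 := hasDerivAt_const 0 0
    have := h1.unique h2
    rw [h0] at this
    exact one_ne_zero this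
  -- the functional equation for the primitive
  have hkey : ∀ t : ℝ, f t * F δ = F (t + δ) - F t := by
    intro t
    have e1 : f t * F δ = ∫ s in (0 : ℝ)..δ, f (t + s) := by
      rw [hF]
      simp only
      rw [← intervalIntegral.integral_const_mul]
      refine intervalIntegral.integral_congr ?_
      intro s _
      exact (hadd t s).symm
    have e2 : (∫ s in (0 : ℝ)..δ, f (t + s)) = ∫ s in (t + 0)..(t + δ), f s :=
      intervalIntegral.integral_comp_add_left f t
    rw [e1, e2, add_zero]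
    rw [hF]
    simp only
    have hi : ∀ a b : ℝ, IntervalIntegrable f volume a b := fun a b =>
      hf.intervalIntegrable a b
    rw [intervalIntegral.integral_interval_sub_left (hi 0 (t + δ)) (hi 0 t)]
  set a : ℂ := (f δ - 1) / F δ with ha
  have hfd : ∀ t : ℝ, HasDerivAt f (a * f t) t := by
    intro t
    have hf_eq : f = fun t => (F (t + δ) - F t) / F δ := by
      funext s
      rw [← hkey s]
      field_simp
    have h1 : HasDerivAt (fun s : ℝ => F (s + δ)) (f (t + δ)) t := by
      have := (hFd (t + δ)).comp_add_const t δ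
      simpa using this
    have h2 : HasDerivAt (fun s : ℝ => (F (s + δ) - F s) / F δ) ((f (t + δ) - f t) / F δ) t :=
      (h1.sub (hFd t)).div_const _
    have h3 : (f (t + δ) - f t) / F δ = a * f t := by
      rw [ha, hadd]
      field_simp
    rw [h3] at h2
    refine h2.congr_of_eventuallyEq (Filter.Eventually.of_forall fun s => ?_)
    exact congrFun hf_eq s
  refine ⟨a, ?_⟩
  -- `g t = f t * exp (-a t)` is constant
  set g : ℝ → ℂ := fun t => f t * Complex.exp (-(a * t)) with hg
  have hgd : ∀ t : ℝ, HasDerivAt g 0 t := by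
    intro t
    have he : HasDerivAt (fun s : ℝ => Complex.exp (-(a * s))) (Complex.exp (-(a * t)) * (-a)) t := by
      have hlin : HasDerivAt (fun s : ℝ => -(a * (s : ℂ))) (-a) t := by
        have h := ((hasDerivAt_id t).ofReal_comp.const_mul a).neg
        have h' : HasDerivAt (fun s : ℝ => -(a * (s : ℂ))) (-(a * ((1 : ℝ) : ℂ))) t := h
        simpa using h'
      exact hlin.cexp
    have := (hfd t).mul he
    have hz : a * f t * Complex.exp (-(a * t)) + f t * (Complex.exp (-(a * t)) * (-a)) = 0 := by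
      ring
    rw [hz] at this
    exact this
  have hconst : ∀ t : ℝ, g t = g 0 := by
    intro t
    have hdiff : Differentiable ℝ g := fun s => (hgd s).differentiableAt
    have hderiv : ∀ s, deriv g s = 0 := fun s => (hgd s).deriv
    exact is_const_of_deriv_eq_zero hdiff hderiv t 0
  intro t
  have h1 := hconst t
  rw [hg] at h1
  simp only [Complex.ofReal_zero, mul_zero, neg_zero, Complex.exp_zero, mul_one, h0] at h1
  have h2 : f t = f t * Complex.exp (-(a * t)) * Complex.exp (a * t) := by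
    rw [mul_assoc, ← Complex.exp_add]
    simp
  rw [h2, h1, one_mul]

/-- A continuous unitary character of `ℝ` is `t ↦ exp (i a t)`. -/
theorem exists_real_exp_of_unitary820 (f : ℝ → ℂ) (hf : Continuous f)
    (hadd : ∀ s t : ℝ, f (s + t) = f s * f t) (hn : ∀ t : ℝ, ‖f t‖ = 1) :
    ∃ a : ℝ, ∀ t : ℝ, f t = Complex.exp (Complex.I * ((a * t : ℝ) : ℂ)) := by
  have h0 : f 0 = 1 := by
    have h := hadd 0 0
    rw [add_zero] at h
    have hne : f 0 ≠ 0 := by
      intro hz
      have := hn 0
      rw [hz, norm_zero] at this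
      exact zero_ne_one this
    have : f 0 * 1 = f 0 * f 0 := by rw [mul_one]; exact h
    exact (mul_left_cancel₀ hne this).symm
  obtain ⟨a, ha⟩ := exists_exp_of_mul820 f hf hadd h0
  have hre : a.re = 0 := by
    have h1 := hn 1
    rw [ha 1, Complex.norm_exp] at h1
    simp only [Complex.ofReal_one, mul_one] at h1
    exact Real.exp_eq_one_iff _ |>.mp h1
  refine ⟨a.im, fun t => ?_⟩
  rw [ha t]
  congr 1
  apply Complex.ext <;> simp [hre]
  

theorem charForm_aux820 (χ : ℂ → ℂ) (hc : Continuous χ)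
    (hadd : ∀ x y : ℂ, χ (x + y) = χ x * χ y) (hn : ∀ x : ℂ, ‖χ x‖ = 1) :
    ∃ c : ℂ, ∀ x : ℂ, χ x = Complex.exp (4 * Real.pi * Complex.I * (((c * x).re : ℝ) : ℂ)) := by
  obtain ⟨a, ha⟩ := exists_real_exp_of_unitary820 (fun t : ℝ => χ (t : ℂ))
    (hc.comp Complex.continuous_ofReal)
    (fun s t => by
      show χ ((s + t : ℝ) : ℂ) = _
      rw [Complex.ofReal_add]
      exact hadd _ _)
    (fun t => hn _)
  obtain ⟨b, hb⟩ := exists_real_exp_of_unitary820 (fun t : ℝ => χ ((t : ℂ) * Complex.I))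
    (hc.comp (Complex.continuous_ofReal.mul continuous_const))
    (fun s t => by
      show χ (((s + t : ℝ) : ℂ) * Complex.I) = _
      rw [Complex.ofReal_add, add_mul]
      exact hadd _ _)
    (fun t => hn _)
  refine ⟨((a : ℂ) - Complex.I * (b : ℂ)) / (4 * Real.pi), fun x => ?_⟩
  have hx : x = (x.re : ℂ) + (x.im : ℂ) * Complex.I := (Complex.re_add_im x).symm
  have h1 : χ x = χ (x.re : ℂ) * χ ((x.im : ℂ) * Complex.I) := by
    conv_lhs => rw [hx]
    exact hadd _ _
  have h2 := ha x.re
  have h3 := hb x.im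
  rw [h1, h2, h3, ← Complex.exp_add]
  congr 1
  have hpi : (Real.pi : ℝ) ≠ 0 := Real.pi_ne_zero
  have hre : ((((a : ℂ) - Complex.I * (b : ℂ)) / (4 * Real.pi)) * x).re
      = (a * x.re + b * x.im) / (4 * Real.pi) := by
    have : (((a : ℂ) - Complex.I * (b : ℂ)) / (4 * Real.pi)) * x
        = (((a : ℂ) - Complex.I * (b : ℂ)) * x) / ((4 * Real.pi : ℝ) : ℂ) := by
      push_cast
      ring
    rw [this, Complex.div_ofReal_re]
    congr 1
    simp [Complex.mul_re]
  rw [hre]
  push_cast
  field_simp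

/-- **Leaf A2.03.1.1.10.08 `CharFormC`.** -/
theorem charFormC820 : Fermat.Agent.LT.A2.CX798.CharFormC := by
  intro χ hc hadd hn
  obtain ⟨c, h⟩ := charForm_aux820 χ hc hadd hn
  exact ⟨c, fun x => by rw [h x]; rfl⟩

end Fermat.Agent.LT.A2.H820
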