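import Fermat.Agent.LT.H129.HeckeFam
import Fermat.Agent.LT.H129.Cartan

/-!
# Row LT, tower A2, leaf A2.03.8.4 `LocalAlgC`, part 1 (seat helper820, OFF-MAIN)

Generic local algebra: `F` a field, `O` a valuation subring (Mathlib + `LT/H129` only).

* matrix identities in `GL₂(F)` between `diag129`, `upperU129`, `mkGL129`;
* `isHeckeElt_mul_left820` : `GL₂(O) ·` Hecke element is a Hecke element;
* `heckeSum_maxCpt820` : for a right `GL₂(O)`-invariant function `w` and a complete family `f` of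
  Hecke representatives, `∑ i, w (x k f_i) = ∑ i, w (x f_i)` for `k ∈ GL₂(O)` (the Hecke operator
  preserves right `GL₂(O)`-invariance).
-/

set_option autoImplicit false

open Matrix

namespace Fermat.Agent.LT.A2.H820

open Fermat.Agent.LT.H129

variable {F : Type*} [Field F]

/-! ## Matrix identities -/

theorem coe_diag820 (x y : F) (hx : x ≠ 0) (hy : y ≠ 0) :
    ((diag129 x y hx hy : GL (Fin 2) F) : Matrix (Fin 2) (Fin 2) F) = !![x, 0; 0, y] := rfl

theorem coe_upperU820 (x : F) :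
    ((upperU129 x : GL (Fin 2) F) : Matrix (Fin 2) (Fin 2) F) = !![1, x; 0, 1] := rfl

/-- `diag(x, y) diag(x', y') = diag(x x', y y')`. -/
theorem diag_mul_diag820 (x y x' y' : F) (hx : x ≠ 0) (hy : y ≠ 0) (hx' : x' ≠ 0)
    (hy' : y' ≠ 0) :
    diag129 x y hx hy * diag129 x' y' hx' hy'
      = diag129 (x * x') (y * y') (mul_ne_zero hx hx') (mul_ne_zero hy hy') := by
  apply ext_mat129
  rw [Matrix.GeneralLinearGroup.coe_mul, coe_diag820, coe_diag820, coe_diag820]
  ext i j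
  fin_cases i <;> fin_cases j <;> simp [Matrix.mul_apply, Fin.sum_univ_two]

theorem diag_congr820 {x y x' y' : F} (hx : x ≠ 0) (hy : y ≠ 0) (ex : x = x') (ey : y = y') :
    diag129 x y hx hy = diag129 x' y' (ex ▸ hx) (ey ▸ hy) := by
  subst ex; subst ey; rfl

/-- `diag(t, 1) n(u) = n(t u) diag(t, 1)`. -/
theorem diag_mul_upper820 (t u : F) (ht : t ≠ 0) :
    diag129 t 1 ht one_ne_zero * upperU129 u = upperU129 (t * u) * diag129 t 1 ht one_ne_zero := by
  apply ext_mat129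
  rw [Matrix.GeneralLinearGroup.coe_mul, Matrix.GeneralLinearGroup.coe_mul, coe_diag820,
    coe_upperU820, coe_upperU820]
  ext i j
  fin_cases i <;> fin_cases j <;> simp [Matrix.mul_apply, Fin.sum_univ_two]

/-- `diag(t, 1) [[ϖ, r], [0, 1]] = n(t r) diag(t ϖ, 1)`. -/
theorem diag_mul_stdSome820 (t ϖ r : F) (ht : t ≠ 0) (hϖ : ϖ ≠ 0) :
    diag129 t 1 ht one_ne_zero * mkGL129 ϖ r 0 1 (by simpa using hϖ)
      = upperU129 (t * r) * diag129 (t * ϖ) 1 (mul_ne_zero ht hϖ) one_ne_zero := by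
  apply ext_mat129
  rw [Matrix.GeneralLinearGroup.coe_mul, Matrix.GeneralLinearGroup.coe_mul, coe_diag820,
    coe_upperU820, coe_diag820, coe_mkGL129]
  ext i j
  fin_cases i <;> fin_cases j <;> simp [Matrix.mul_apply, Fin.sum_univ_two]

/-- `diag(t ϖ, 1) [[1, 0], [0, ϖ]] = diag(t, 1) diag(ϖ, ϖ)`. -/
theorem diag_mul_stdNone820 (t ϖ : F) (ht : t ≠ 0) (hϖ : ϖ ≠ 0) :
    diag129 (t * ϖ) 1 (mul_ne_zero ht hϖ) one_ne_zero * mkGL129 1 0 0 ϖ (by simpa using hϖ)
      = diag129 t 1 ht one_ne_zero * diag129 ϖ ϖ hϖ hϖ := by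
  apply ext_mat129
  rw [Matrix.GeneralLinearGroup.coe_mul, Matrix.GeneralLinearGroup.coe_mul, coe_diag820,
    coe_diag820, coe_diag820, coe_mkGL129]
  ext i j
  fin_cases i <;> fin_cases j <;> simp [Matrix.mul_apply, Fin.sum_univ_two]

/-- A scalar matrix is central. -/
theorem scalar_comm820 (s : F) (hs : s ≠ 0) (g : GL (Fin 2) F) :
    diag129 s s hs hs * g = g * diag129 s s hs hs := by
  apply ext_mat129
  rw [Matrix.GeneralLinearGroup.coe_mul, Matrix.GeneralLinearGroup.coe_mul, coe_diag820,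
    eta129 g]
  ext i j
  fin_cases i <;> fin_cases j <;> simp [Matrix.mul_apply, Fin.sum_univ_two, mul_comm]

/-- An upper triangular matrix is `n(y) diag(y₁, y₂)`. -/
theorem upper_eq820 (g : GL (Fin 2) F) (hg : IsUpper129 g) :
    ∃ (y y₁ y₂ : F) (h₁ : y₁ ≠ 0) (h₂ : y₂ ≠ 0), g = upperU129 y * diag129 y₁ y₂ h₁ h₂ := by
  have hdet := det_ne_zero129 g
  unfold IsUpper129 at hg
  rw [hg, mul_zero, sub_zero] at hdet
  have h₁ : (g : Matrix (Fin 2) (Fin 2) F) 0 0 ≠ 0 := left_ne_zero_of_mul hdet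
  have h₂ : (g : Matrix (Fin 2) (Fin 2) F) 1 1 ≠ 0 := right_ne_zero_of_mul hdet
  refine ⟨(g : Matrix (Fin 2) (Fin 2) F) 0 1 / (g : Matrix (Fin 2) (Fin 2) F) 1 1, _, _, h₁, h₂,
    ?_⟩
  apply ext_mat129
  rw [Matrix.GeneralLinearGroup.coe_mul, coe_diag820, coe_upperU820]
  conv_lhs => rw [eta129 g, hg]
  ext i j
  fin_cases i <;> fin_cases j <;> simp [Matrix.mul_apply, Fin.sum_univ_two, h₂]

/-! ## `GL₂(O)` and Hecke elements -/

/-- The determinant of an element of `GL₂(O)` has valuation `1`. -/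
theorem valuation_det_maxCpt820 {O : ValuationSubring F} {k : GL (Fin 2) F}
    (hk : IsMaxCpt129 O k) : O.valuation (k : Matrix (Fin 2) (Fin 2) F).det = 1 := by
  have h1 : O.valuation (k : Matrix (Fin 2) (Fin 2) F).det ≤ 1 :=
    (ValuationSubring.valuation_le_one_iff O _).2 (det_mem_of_isInt129 hk.1)
  have h2 : O.valuation ((k⁻¹ : GL (Fin 2) F) : Matrix (Fin 2) (Fin 2) F).det ≤ 1 :=
    (ValuationSubring.valuation_le_one_iff O _).2 (det_mem_of_isInt129 hk.2)
  have hmul : (k : Matrix (Fin 2) (Fin 2) F).det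
      * ((k⁻¹ : GL (Fin 2) F) : Matrix (Fin 2) (Fin 2) F).det = 1 := by
    rw [← Matrix.det_mul, ← Matrix.GeneralLinearGroup.coe_mul, mul_inv_cancel]
    simp
  have hv : O.valuation (k : Matrix (Fin 2) (Fin 2) F).det
      * O.valuation ((k⁻¹ : GL (Fin 2) F) : Matrix (Fin 2) (Fin 2) F).det = 1 := by
    rw [← map_mul, hmul, map_one]
  apply le_antisymm h1
  calc (1 : O.ValueGroup) = O.valuation (k : Matrix (Fin 2) (Fin 2) F).det
        * O.valuation ((k⁻¹ : GL (Fin 2) F) : Matrix (Fin 2) (Fin 2) F).det := hv.symm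
    _ ≤ O.valuation (k : Matrix (Fin 2) (Fin 2) F).det := mul_le_of_le_one_right' h2

/-- `GL₂(O) ·` Hecke element is a Hecke element. -/
theorem isHeckeElt_mul_left820 {O : ValuationSubring F} {k g : GL (Fin 2) F}
    (hk : IsMaxCpt129 O k) (hg : IsHeckeElt129 O g) : IsHeckeElt129 O (k * g) := by
  refine ⟨isInt129_mul hk.1 hg.1, ?_⟩
  have e : O.valuation ((k * g : GL (Fin 2) F) : Matrix (Fin 2) (Fin 2) F).det
      = O.valuation (g : Matrix (Fin 2) (Fin 2) F).det := by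
    rw [Matrix.GeneralLinearGroup.coe_mul, Matrix.det_mul, map_mul, valuation_det_maxCpt820 hk,
      one_mul]
  unfold IsUnif129
  rw [e]
  exact hg.2

/-- **The Hecke operator preserves right `GL₂(O)`-invariance.** -/
theorem heckeSum_maxCpt820 (O : ValuationSubring F) [Finite (IsLocalRing.ResidueField O)]
    {ι : Type*} [Fintype ι] (f : ι → GL (Fin 2) F)
    (hcard : Fintype.card ι = Nat.card (IsLocalRing.ResidueField O) + 1)
    (hH : ∀ i, IsHeckeElt129 O (f i))
    (hne : ∀ i j, i ≠ j → ¬ IsInt129 O ((f i)⁻¹ * f j))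
    {M : Type*} [AddCommMonoid M] (w : GL (Fin 2) F → M)
    (hw : ∀ k : GL (Fin 2) F, IsMaxCpt129 O k → ∀ x : GL (Fin 2) F, w (x * k) = w x)
    (k : GL (Fin 2) F) (hk : IsMaxCpt129 O k) (x : GL (Fin 2) F) :
    ∑ i, w (x * k * f i) = ∑ i, w (x * f i) := by
  classical
  have key : ∀ i, ∃ j, IsInt129 O ((f j)⁻¹ * (k * f i)) :=
    fun i => (hecke_complete_fam129 O f hcard hH hne (k * f i)
      (isHeckeElt_mul_left820 hk (hH i))).imp fun j hj => hj.1
  choose σ hσ using key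
  have hσ' : ∀ i, IsMaxCpt129 O ((f (σ i))⁻¹ * (k * f i)) := by
    intro i
    refine ⟨hσ i, ?_⟩
    have e : ((f (σ i))⁻¹ * (k * f i))⁻¹ = (k * f i)⁻¹ * f (σ i) := by group
    rw [e]
    exact isInt_inv_mul_symm129 (hH (σ i)) (isHeckeElt_mul_left820 hk (hH i)) (hσ i)
  have hinj : Function.Injective σ := by
    intro i j hij
    by_contra hcon
    apply hne i j hcon
    have e : (f i)⁻¹ * f j
        = ((f (σ i))⁻¹ * (k * f i))⁻¹ * ((f (σ j))⁻¹ * (k * f j)) := by
      rw [hij]; group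
    rw [e]
    exact isInt129_mul (isMaxCpt129_inv (hσ' i)).1 (hσ j)
  have hbij : Function.Bijective σ := Finite.injective_iff_bijective.mp hinj
  have hterm : ∀ i, w (x * k * f i) = w (x * f (σ i)) := by
    intro i
    rw [← hw _ (hσ' i) (x * f (σ i))]
    congr 1
    group
  rw [Finset.sum_congr rfl fun i _ => hterm i]
  exact Function.Bijective.sum_comp hbij fun j => w (x * f j)

end Fermat.Agent.LT.A2.H820
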