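import Fermat.Agent.LT.A2.H142.HeckeSpec
import Fermat.Agent.LT.A2.H820.LocalAlgGen

/-!
# Row LT, tower A2, LEAF A2.03.8.4 `H142.LocalAlgC` (seat helper820, OFF-MAIN)

`localAlgC820 : H142.LocalAlgC`, VERBATIM vs `LT/A2/H142/HeckeSpec.lean` (helper142@670ef2ef6,
sha256 7c6078cc752b1779).  Local: Mathlib + `LT/H129` only; no adeles, no measure.

## Proof

Let `T w (x) = ∑_c w (x h_c)` (standard coset system) and `Δ = T w - √q a w`.  Then `Δ` is
* right `GL₂(𝒪_v)`-invariant (`LocalAlgGen.heckeSum_maxCpt820`: `k h_c = h_{σ c} k_c`),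
* `(N, ψ_v)`-equivariant on the left, and `Δ (x ϖ) = b Δ (x)` (`ϖ` is central).
A function `F` with these three properties which vanishes at `diag(ϖ^j, 1)`, `j ≥ 0`, is zero
(`eq_zero_of_vanish820`): Iwasawa reduces to `diag(y₁, y₂) = diag(y₁/y₂, 1) · y₂`, the scalar `y₂`
is `ϖ^n · unit` or `ϖ^{-n} · unit` (if `b = 0` then `F = 0` at once), and at `diag(t, 1)` with
`v(t) > 1` EVERY function with the first two properties vanishes
(`eq_zero_of_big820`: `F(diag(t,1)) = F(diag(t,1) n(u)) = ψ_v(t u) F(diag(t,1))`, `u ∈ 𝒪_v`,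
`ψ_v(t u) ≠ 1`) -- in particular no character sum is needed.
Finally `Δ (diag(ϖ^j, 1)) = q ω_{j+1} + b ω_{j-1} - √q a ω_j = 0` is the recursion
(`ω_{-1} = w(diag(ϖ⁻¹, 1)) = 0` again by `eq_zero_of_big820`).
-/

set_option autoImplicit false

open IsDedekindDomain NumberField IsDedekindDomain.HeightOneSpectrum
open scoped MatrixGroups

noncomputable section

namespace Fermat.Agent.LT.A2.H820

open Fermat.Agent.LT.H129 Fermat.Agent.LT.A2.H142

variable {K : Type} [Field K] [NumberField K] (v : HeightOneSpectrum (𝓞 K))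

/-! ## Valuations -/

theorem exists_exp820 {t : v.adicCompletion K} (ht : t ≠ 0) :
    ∃ n : ℤ, Valued.v t = WithZero.exp n := by
  have h : Valued.v t ≠ 0 := (Valuation.ne_zero_iff _).2 ht
  obtain ⟨a, ha⟩ := WithZero.ne_zero_iff_exists.1 h
  exact ⟨Multiplicative.toAdd a, ha.symm⟩

theorem mem_of_valued_eq_one820 {u : v.adicCompletion K} (hu : Valued.v u = 1) :
    u ∈ v.adicCompletionIntegers K := by
  rw [mem_adicCompletionIntegers, hu]

theorem inv_mem_of_valued_eq_one820 {u : v.adicCompletion K} (hu : Valued.v u = 1) :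
    u⁻¹ ∈ v.adicCompletionIntegers K := by
  rw [mem_adicCompletionIntegers, map_inv₀, hu, inv_one]

theorem ne_zero_of_valued_eq_one820 {u : v.adicCompletion K} (hu : Valued.v u = 1) : u ≠ 0 := by
  intro h
  rw [h, map_zero] at hu
  exact zero_ne_one hu

/-- `diag(u, u')` with units `u`, `u'` lies in `GL₂(𝒪_v)`. -/
theorem isMaxCpt_diag820 {u u' : v.adicCompletion K} (hu : Valued.v u = 1)
    (hu' : Valued.v u' = 1) :
    IsMaxCpt129 (v.adicCompletionIntegers K)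
      (diag129 u u' (ne_zero_of_valued_eq_one820 v hu) (ne_zero_of_valued_eq_one820 v hu')) := by
  have h0 : (0 : v.adicCompletion K) ∈ v.adicCompletionIntegers K :=
    (v.adicCompletionIntegers K).zero_mem
  have hu0 := ne_zero_of_valued_eq_one820 v hu
  have hu0' := ne_zero_of_valued_eq_one820 v hu'
  have hinv : (diag129 u u' hu0 hu0')⁻¹
      = diag129 u⁻¹ u'⁻¹ (inv_ne_zero hu0) (inv_ne_zero hu0') := by
    rw [inv_eq_iff_mul_eq_one, diag_mul_diag820]
    apply ext_mat129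
    rw [coe_diag820, mul_inv_cancel₀ hu0, mul_inv_cancel₀ hu0']
    simp [Matrix.one_fin_two]
  refine ⟨isInt129_mkGL _ (mem_of_valued_eq_one820 v hu) h0 h0 (mem_of_valued_eq_one820 v hu'),
    ?_⟩
  rw [hinv]
  exact isInt129_mkGL _ (inv_mem_of_valued_eq_one820 v hu) h0 h0
    (inv_mem_of_valued_eq_one820 v hu')

theorem valued_pow820 {ϖ : v.adicCompletion K} (hϖ : Valued.v ϖ = WithZero.exp (-1 : ℤ))
    (n : ℕ) : Valued.v (ϖ ^ n) = WithZero.exp (-(n : ℤ)) := by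
  rw [map_pow, hϖ, ← WithZero.exp_nsmul]
  simp

/-! ## The standard coset system, locally -/

theorem stdLoc_isHecke820 {ϖ : v.adicCompletion K} (hϖ : Valued.v ϖ = WithZero.exp (-1 : ℤ))
    (c : Option (𝓞 K ⧸ v.asIdeal)) :
    IsHeckeElt129 (v.adicCompletionIntegers K) (stdLoc142 v ϖ (unif_ne_zero129 v hϖ) c) := by
  have h1 : (1 : v.adicCompletion K) ∈ v.adicCompletionIntegers K :=
    (v.adicCompletionIntegers K).one_mem
  have h0 : (0 : v.adicCompletion K) ∈ v.adicCompletionIntegers K :=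
    (v.adicCompletionIntegers K).zero_mem
  cases c with
  | none =>
    simp only [stdLoc142]
    refine ⟨isInt129_mkGL _ h1 h0 h0 (unif_mem129 v hϖ), ?_⟩
    apply isUnif129_of_valued_eq
    simp only [coe_mkGL129, Matrix.det_fin_two_of]
    simpa using hϖ
  | some c =>
    simp only [stdLoc142]
    refine ⟨isInt129_mkGL _ (unif_mem129 v hϖ) (rep129_mem v c) h0 h1, ?_⟩
    apply isUnif129_of_valued_eq
    simp only [coe_mkGL129, Matrix.det_fin_two_of]
    simpa using hϖ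

theorem stdLoc_not_int820 {ϖ : v.adicCompletion K} (hϖ : Valued.v ϖ = WithZero.exp (-1 : ℤ))
    (a b : Option (𝓞 K ⧸ v.asIdeal)) (hab : a ≠ b) :
    ¬ IsInt129 (v.adicCompletionIntegers K)
      ((stdLoc142 v ϖ (unif_ne_zero129 v hϖ) a)⁻¹ * stdLoc142 v ϖ (unif_ne_zero129 v hϖ) b) := by
  have hπ0 := unif_ne_zero129 v hϖ
  intro hint
  cases a with
  | none =>
    cases b with
    | none => exact hab rfl
    | some c =>
      simp only [stdLoc142] at hint
      have := hint 1 1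
      rw [lower_inv_mul_upper129 hπ0] at this
      exact unif_inv_not_mem129 v hϖ this
  | some c =>
    cases b with
    | none =>
      simp only [stdLoc142] at hint
      have := hint 0 0
      rw [upper_inv_mul_lower129 hπ0] at this
      exact unif_inv_not_mem129 v hϖ this
    | some c' =>
      have hcc : c ≠ c' := fun h => hab (by rw [h])
      simp only [stdLoc142] at hint
      have := hint 0 1
      rw [upper_inv_mul_upper129 hπ0, mem_adicCompletionIntegers, map_div₀,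
        valued_rep129_sub v hcc, hϖ, one_div, ← WithZero.exp_neg, ← WithZero.exp_zero,
        WithZero.exp_le_exp] at this
      norm_num at this

theorem finite_quot820 : Finite (𝓞 K ⧸ v.asIdeal) := by
  apply Nat.finite_of_card_ne_zero
  rw [← Submodule.cardQuot_apply, ← Ideal.absNorm_apply]
  exact ne_of_gt (lt_trans Nat.zero_lt_one (NumberField.HeightOneSpectrum.one_lt_absNorm v))

theorem card_option_quot820 [Fintype (𝓞 K ⧸ v.asIdeal)] :
    Fintype.card (Option (𝓞 K ⧸ v.asIdeal))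
      = Nat.card (IsLocalRing.ResidueField (v.adicCompletionIntegers K)) + 1 := by
  rw [Fintype.card_option, card_residueField129, Ideal.absNorm_apply, Submodule.cardQuot_apply,
    Nat.card_eq_fintype_card]

theorem qC_eq_card820 [Fintype (𝓞 K ⧸ v.asIdeal)] :
    qC142 v = (Fintype.card (𝓞 K ⧸ v.asIdeal) : ℂ) := by
  unfold qC142
  rw [Ideal.absNorm_apply, Submodule.cardQuot_apply, Nat.card_eq_fintype_card]

/-! ## Vanishing -/

section Vanish

variable {v}
variable {ϖ : v.adicCompletion K} (hϖ : Valued.v ϖ = WithZero.exp (-1 : ℤ))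
  {ψv : v.adicCompletion K → ℂ} {F : GL (Fin 2) (v.adicCompletion K) → ℂ} {b : ℂ}

/-- A right `GL₂(𝒪_v)`-invariant, left `(N, ψ_v)`-equivariant function vanishes at `diag(t, 1)`
for `v(t) > 1`, if `ψ_v` is non-trivial on the elements of valuation `exp 1`. -/
theorem eq_zero_of_big820
    (hψ : ∃ x : v.adicCompletion K, Valued.v x = WithZero.exp (1 : ℤ) ∧ ψv x ≠ 1)
    (hK : ∀ k : GL (Fin 2) (v.adicCompletion K), IsMaxCpt129 (v.adicCompletionIntegers K) k →
      ∀ x : GL (Fin 2) (v.adicCompletion K), F (x * k) = F x)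
    (hN : ∀ (y : v.adicCompletion K) (x : GL (Fin 2) (v.adicCompletion K)),
      F (upperU129 y * x) = ψv y * F x)
    {t : v.adicCompletion K} (ht : t ≠ 0) {n : ℤ} (hn : Valued.v t = WithZero.exp n)
    (h1 : 1 ≤ n) : F (diag129 t 1 ht one_ne_zero) = 0 := by
  obtain ⟨x₀, hx₀, hψx₀⟩ := hψ
  have hu : x₀ / t ∈ v.adicCompletionIntegers K := by
    rw [mem_adicCompletionIntegers, map_div₀, hx₀, hn, ← WithZero.exp_sub, ← WithZero.exp_zero,
      WithZero.exp_le_exp]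
    omega
  have e1 := hK _ (isMaxCpt129_upperU hu) (diag129 t 1 ht one_ne_zero)
  rw [diag_mul_upper820, hN, mul_div_cancel₀ _ ht] at e1
  have e2 : (ψv x₀ - 1) * F (diag129 t 1 ht one_ne_zero) = 0 := by
    rw [sub_mul, one_mul, e1, sub_self]
  rcases mul_eq_zero.1 e2 with h | h
  · exact absurd (sub_eq_zero.1 h) hψx₀
  · exact h

/-- `F (g · diag(ϖ^n, ϖ^n)) = b^n F (g)`. -/
theorem scalar_pow820
    (hZ : ∀ x : GL (Fin 2) (v.adicCompletion K),
      F (x * diag129 ϖ ϖ (unif_ne_zero129 v hϖ) (unif_ne_zero129 v hϖ)) = b * F x)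
    (n : ℕ) (g : GL (Fin 2) (v.adicCompletion K)) :
    F (g * diag129 (ϖ ^ n) (ϖ ^ n) (pow_ne_zero n (unif_ne_zero129 v hϖ))
      (pow_ne_zero n (unif_ne_zero129 v hϖ))) = b ^ n * F g := by
  induction n generalizing g with
  | zero =>
    have e : diag129 (ϖ ^ 0) (ϖ ^ 0) (pow_ne_zero 0 (unif_ne_zero129 v hϖ))
        (pow_ne_zero 0 (unif_ne_zero129 v hϖ)) = 1 := by
      apply ext_mat129
      rw [coe_diag820]
      simp [Matrix.one_fin_two]
    rw [e, mul_one, pow_zero, one_mul]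
  | succ n ih =>
    have e : diag129 (ϖ ^ (n + 1)) (ϖ ^ (n + 1)) (pow_ne_zero (n + 1) (unif_ne_zero129 v hϖ))
        (pow_ne_zero (n + 1) (unif_ne_zero129 v hϖ))
        = diag129 (ϖ ^ n) (ϖ ^ n) (pow_ne_zero n (unif_ne_zero129 v hϖ))
            (pow_ne_zero n (unif_ne_zero129 v hϖ))
          * diag129 ϖ ϖ (unif_ne_zero129 v hϖ) (unif_ne_zero129 v hϖ) := by
      rw [diag_mul_diag820]
      exact diag_congr820 _ _ (pow_succ ϖ n) (pow_succ ϖ n)
    rw [e, ← mul_assoc, hZ, ih, pow_succ]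
    ring

/-- If `F g = 0` then `F (g · s) = 0` for every scalar `s` (for `b ≠ 0`). -/
theorem scalar_zero820 (hb : b ≠ 0)
    (hK : ∀ k : GL (Fin 2) (v.adicCompletion K), IsMaxCpt129 (v.adicCompletionIntegers K) k →
      ∀ x : GL (Fin 2) (v.adicCompletion K), F (x * k) = F x)
    (hZ : ∀ x : GL (Fin 2) (v.adicCompletion K),
      F (x * diag129 ϖ ϖ (unif_ne_zero129 v hϖ) (unif_ne_zero129 v hϖ)) = b * F x)
    {s : v.adicCompletion K} (hs : s ≠ 0) (g : GL (Fin 2) (v.adicCompletion K))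
    (hg : F g = 0) : F (g * diag129 s s hs hs) = 0 := by
  have hϖ0 := unif_ne_zero129 v hϖ
  obtain ⟨m, hm⟩ := exists_exp820 v hs
  rcases le_total m 0 with hm0 | hm0
  · -- `s = ϖ^n u`, `n = -m`
    obtain ⟨n, rfl⟩ : ∃ n : ℕ, m = -(n : ℤ) := ⟨(-m).toNat, by omega⟩
    have hu : Valued.v (s / ϖ ^ n) = 1 := by
      rw [map_div₀, hm, valued_pow820 v hϖ, ← WithZero.exp_sub, sub_self, WithZero.exp_zero]
    have e : diag129 s s hs hs
        = diag129 (ϖ ^ n) (ϖ ^ n) (pow_ne_zero n hϖ0) (pow_ne_zero n hϖ0)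
          * diag129 (s / ϖ ^ n) (s / ϖ ^ n) (ne_zero_of_valued_eq_one820 v hu)
              (ne_zero_of_valued_eq_one820 v hu) := by
      rw [diag_mul_diag820]
      exact diag_congr820 _ _ (mul_div_cancel₀ s (pow_ne_zero n hϖ0)).symm
        (mul_div_cancel₀ s (pow_ne_zero n hϖ0)).symm
    rw [e, ← mul_assoc, hK _ (isMaxCpt_diag820 v hu hu), scalar_pow820 hϖ hZ, hg, mul_zero]
  · -- `s ϖ^n = u`, `n = m`
    obtain ⟨n, rfl⟩ : ∃ n : ℕ, m = (n : ℤ) := ⟨m.toNat, by omega⟩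
    have hu : Valued.v (s * ϖ ^ n) = 1 := by
      rw [map_mul, hm, valued_pow820 v hϖ, ← WithZero.exp_add, add_neg_cancel,
        WithZero.exp_zero]
    have e : diag129 s s hs hs * diag129 (ϖ ^ n) (ϖ ^ n) (pow_ne_zero n hϖ0) (pow_ne_zero n hϖ0)
        = diag129 (s * ϖ ^ n) (s * ϖ ^ n) (ne_zero_of_valued_eq_one820 v hu)
              (ne_zero_of_valued_eq_one820 v hu) := by
      rw [diag_mul_diag820]
    have h1 := scalar_pow820 hϖ hZ n (g * diag129 s s hs hs)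
    rw [mul_assoc, e, hK _ (isMaxCpt_diag820 v hu hu), hg] at h1
    rcases mul_eq_zero.1 h1.symm with h | h
    · exact absurd h (pow_ne_zero n hb)
    · exact h

/-- **Vanishing.**  A right `GL₂(𝒪_v)`-invariant, left `(N, ψ_v)`-equivariant function with
`F (x ϖ) = b F (x)` which vanishes at `diag(ϖ^j, 1)`, `j ≥ 0`, is zero. -/
theorem eq_zero_of_vanish820
    (hψ : ∃ x : v.adicCompletion K, Valued.v x = WithZero.exp (1 : ℤ) ∧ ψv x ≠ 1)
    (hK : ∀ k : GL (Fin 2) (v.adicCompletion K), IsMaxCpt129 (v.adicCompletionIntegers K) k →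
      ∀ x : GL (Fin 2) (v.adicCompletion K), F (x * k) = F x)
    (hN : ∀ (y : v.adicCompletion K) (x : GL (Fin 2) (v.adicCompletion K)),
      F (upperU129 y * x) = ψv y * F x)
    (hZ : ∀ x : GL (Fin 2) (v.adicCompletion K),
      F (x * diag129 ϖ ϖ (unif_ne_zero129 v hϖ) (unif_ne_zero129 v hϖ)) = b * F x)
    (h0 : ∀ j : ℕ, F (dgl142 v ϖ (unif_ne_zero129 v hϖ) j) = 0)
    (x : GL (Fin 2) (v.adicCompletion K)) : F x = 0 := by
  have hϖ0 := unif_ne_zero129 v hϖ
  by_cases hb : b = 0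
  · have := hZ (x * (diag129 ϖ ϖ hϖ0 hϖ0)⁻¹)
    rw [inv_mul_cancel_right, hb, zero_mul] at this
    exact this
  -- `F (diag(t, 1)) = 0`
  have hdiag : ∀ (t : v.adicCompletion K) (ht : t ≠ 0), F (diag129 t 1 ht one_ne_zero) = 0 := by
    intro t ht
    obtain ⟨n, hn⟩ := exists_exp820 v ht
    rcases le_or_gt 1 n with h1 | h1
    · exact eq_zero_of_big820 hψ hK hN ht hn h1
    · obtain ⟨j, rfl⟩ : ∃ j : ℕ, n = -(j : ℤ) := ⟨(-n).toNat, by omega⟩
      have hu : Valued.v (t / ϖ ^ j) = 1 := by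
        rw [map_div₀, hn, valued_pow820 v hϖ, ← WithZero.exp_sub, sub_self, WithZero.exp_zero]
      have e : diag129 t 1 ht one_ne_zero
          = dgl142 v ϖ hϖ0 j * diag129 (t / ϖ ^ j) 1 (ne_zero_of_valued_eq_one820 v hu)
              one_ne_zero := by
        unfold dgl142
        rw [diag_mul_diag820]
        exact diag_congr820 _ _ (mul_div_cancel₀ t (pow_ne_zero j hϖ0)).symm (one_mul 1).symm
      rw [e, hK _ (isMaxCpt_diag820 v hu (map_one _)), h0]
  -- Iwasawa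
  obtain ⟨B, k, rfl, hB, hk⟩ := iwasawa129 (v.adicCompletionIntegers K) x
  obtain ⟨y, y₁, y₂, h₁, h₂, rfl⟩ := upper_eq820 B hB
  rw [hK k hk, hN]
  have e : diag129 y₁ y₂ h₁ h₂
      = diag129 (y₁ / y₂) 1 (div_ne_zero h₁ h₂) one_ne_zero * diag129 y₂ y₂ h₂ h₂ := by
    rw [diag_mul_diag820]
    exact diag_congr820 _ _ (div_mul_cancel₀ y₁ h₂).symm (one_mul y₂).symm
  rw [e, scalar_zero820 hϖ hb hK hZ h₂ _ (hdiag _ _), mul_zero]

end Vanish

/-! ## The Hecke sum at `diag(ϖ^j, 1)` -/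

section Hecke

variable {v}
variable {ϖ : v.adicCompletion K} (hϖ : Valued.v ϖ = WithZero.exp (-1 : ℤ))
  {ψv : v.adicCompletion K → ℂ} {w : GL (Fin 2) (v.adicCompletion K) → ℂ} {b : ℂ}

theorem w_some820 [Fintype (𝓞 K ⧸ v.asIdeal)]
    (hψ1 : ∀ x : v.adicCompletion K, x ∈ v.adicCompletionIntegers K → ψv x = 1)
    (hN : ∀ (y : v.adicCompletion K) (x : GL (Fin 2) (v.adicCompletion K)),
      w (upperU129 y * x) = ψv y * w x) (j : ℕ) (c : 𝓞 K ⧸ v.asIdeal) :
    w (dgl142 v ϖ (unif_ne_zero129 v hϖ) j * stdLoc142 v ϖ (unif_ne_zero129 v hϖ) (some c))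
      = w (dgl142 v ϖ (unif_ne_zero129 v hϖ) (j + 1)) := by
  have hϖ0 := unif_ne_zero129 v hϖ
  have e : dgl142 v ϖ hϖ0 j * stdLoc142 v ϖ hϖ0 (some c)
      = upperU129 (ϖ ^ j * rep129 v c) * dgl142 v ϖ hϖ0 (j + 1) := by
    unfold dgl142
    simp only [stdLoc142]
    rw [diag_mul_stdSome820 (ϖ ^ j) ϖ (rep129 v c) (pow_ne_zero j hϖ0) hϖ0]
    congr 1
  have hmem : ϖ ^ j * rep129 v c ∈ v.adicCompletionIntegers K :=
    (v.adicCompletionIntegers K).mul_mem _ _
      ((v.adicCompletionIntegers K).pow_mem (unif_mem129 v hϖ) j) (rep129_mem v c)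
  rw [e, hN, hψ1 _ hmem, one_mul]

theorem w_none_succ820
    (hZ : ∀ x : GL (Fin 2) (v.adicCompletion K),
      w (x * diag129 ϖ ϖ (unif_ne_zero129 v hϖ) (unif_ne_zero129 v hϖ)) = b * w x) (j : ℕ) :
    w (dgl142 v ϖ (unif_ne_zero129 v hϖ) (j + 1) * stdLoc142 v ϖ (unif_ne_zero129 v hϖ) none)
      = b * w (dgl142 v ϖ (unif_ne_zero129 v hϖ) j) := by
  have hϖ0 := unif_ne_zero129 v hϖ
  have e : dgl142 v ϖ hϖ0 (j + 1) * stdLoc142 v ϖ hϖ0 none
      = dgl142 v ϖ hϖ0 j * diag129 ϖ ϖ hϖ0 hϖ0 := by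
    unfold dgl142
    simp only [stdLoc142]
    rw [← diag_mul_stdNone820 (ϖ ^ j) ϖ (pow_ne_zero j hϖ0) hϖ0]
    congr 1
  rw [e, hZ]

theorem w_none_zero820
    (hψ : ∃ x : v.adicCompletion K, Valued.v x = WithZero.exp (1 : ℤ) ∧ ψv x ≠ 1)
    (hK : ∀ k : GL (Fin 2) (v.adicCompletion K), IsMaxCpt129 (v.adicCompletionIntegers K) k →
      ∀ x : GL (Fin 2) (v.adicCompletion K), w (x * k) = w x)
    (hN : ∀ (y : v.adicCompletion K) (x : GL (Fin 2) (v.adicCompletion K)),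
      w (upperU129 y * x) = ψv y * w x)
    (hZ : ∀ x : GL (Fin 2) (v.adicCompletion K),
      w (x * diag129 ϖ ϖ (unif_ne_zero129 v hϖ) (unif_ne_zero129 v hϖ)) = b * w x) :
    w (dgl142 v ϖ (unif_ne_zero129 v hϖ) 0 * stdLoc142 v ϖ (unif_ne_zero129 v hϖ) none) = 0 := by
  have hϖ0 := unif_ne_zero129 v hϖ
  have e : dgl142 v ϖ hϖ0 0 * stdLoc142 v ϖ hϖ0 none
      = diag129 ϖ⁻¹ 1 (inv_ne_zero hϖ0) one_ne_zero * diag129 ϖ ϖ hϖ0 hϖ0 := by
    unfold dgl142
    simp only [stdLoc142]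
    rw [diag_mul_diag820]
    apply ext_mat129
    rw [Matrix.GeneralLinearGroup.coe_mul, coe_diag820, coe_diag820, coe_mkGL129,
      inv_mul_cancel₀ hϖ0]
    ext i j
    fin_cases i <;> fin_cases j <;> simp [Matrix.mul_apply, Fin.sum_univ_two]
  have hval : Valued.v (ϖ⁻¹ : v.adicCompletion K) = WithZero.exp (1 : ℤ) := by
    rw [map_inv₀, hϖ, ← WithZero.exp_neg, neg_neg]
  rw [e, hZ, eq_zero_of_big820 hψ hK hN (inv_ne_zero hϖ0) hval le_rfl, mul_zero]

/-- The Hecke sum at `diag(ϖ^j, 1)` is `√q a ω_j`. -/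
theorem hecke_at_diag820 [Fintype (𝓞 K ⧸ v.asIdeal)] {a : ℂ}
    (hψ1 : ∀ x : v.adicCompletion K, x ∈ v.adicCompletionIntegers K → ψv x = 1)
    (hψ : ∃ x : v.adicCompletion K, Valued.v x = WithZero.exp (1 : ℤ) ∧ ψv x ≠ 1)
    (hK : ∀ k : GL (Fin 2) (v.adicCompletion K), IsMaxCpt129 (v.adicCompletionIntegers K) k →
      ∀ x : GL (Fin 2) (v.adicCompletion K), w (x * k) = w x)
    (hN : ∀ (y : v.adicCompletion K) (x : GL (Fin 2) (v.adicCompletion K)),
      w (upperU129 y * x) = ψv y * w x)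
    (hZ : ∀ x : GL (Fin 2) (v.adicCompletion K),
      w (x * diag129 ϖ ϖ (unif_ne_zero129 v hϖ) (unif_ne_zero129 v hϖ)) = b * w x)
    (hrec : Rec142 v (fun j => w (dgl142 v ϖ (unif_ne_zero129 v hϖ) j)) a b) (j : ℕ) :
    ∑ c : Option (𝓞 K ⧸ v.asIdeal),
        w (dgl142 v ϖ (unif_ne_zero129 v hϖ) j * stdLoc142 v ϖ (unif_ne_zero129 v hϖ) c)
      = sqC142 v * a * w (dgl142 v ϖ (unif_ne_zero129 v hϖ) j) := by
  rw [Fintype.sum_option, Finset.sum_congr rfl fun c _ => w_some820 hϖ hψ1 hN j c,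
    Finset.sum_const, Finset.card_univ, nsmul_eq_mul, ← qC_eq_card820]
  cases j with
  | zero =>
    rw [w_none_zero820 hϖ hψ hK hN hZ, zero_add]
    exact hrec.1
  | succ j =>
    rw [w_none_succ820 hϖ hZ, add_comm]
    exact hrec.2 j

end Hecke

/-! ## The leaf -/

/-- **LEAF A2.03.8.4** `H142.LocalAlgC`. -/
theorem localAlgC820 : LocalAlgC := by
  intro K _ _ v ϖ hϖ ψv w a b _hadd hψ1 hψ hK hN hZ hrec x
  classical
  have : Finite (𝓞 K ⧸ v.asIdeal) := finite_quot820 v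
  let _ : Fintype (𝓞 K ⧸ v.asIdeal) := Fintype.ofFinite _
  have : Finite (IsLocalRing.ResidueField (v.adicCompletionIntegers K)) :=
    finite_residueField129 K v
  have hϖ0 := unif_ne_zero129 v hϖ
  rw [finsum_eq_sum_of_fintype]
  -- the difference
  set Δ : GL (Fin 2) (v.adicCompletion K) → ℂ := fun x =>
    (∑ c : Option (𝓞 K ⧸ v.asIdeal), w (x * stdLoc142 v ϖ hϖ0 c)) - sqC142 v * a * w x with hΔ
  have hΔK : ∀ k : GL (Fin 2) (v.adicCompletion K),
      IsMaxCpt129 (v.adicCompletionIntegers K) k →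
      ∀ x : GL (Fin 2) (v.adicCompletion K), Δ (x * k) = Δ x := by
    intro k hk x
    simp only [hΔ]
    rw [heckeSum_maxCpt820 (v.adicCompletionIntegers K) (stdLoc142 v ϖ hϖ0)
      (card_option_quot820 v) (stdLoc_isHecke820 v hϖ) (stdLoc_not_int820 v hϖ) w hK k hk x,
      hK k hk x]
  have hΔN : ∀ (y : v.adicCompletion K) (x : GL (Fin 2) (v.adicCompletion K)),
      Δ (upperU129 y * x) = ψv y * Δ x := by
    intro y x
    simp only [hΔ]
    rw [Finset.sum_congr rfl fun c _ => by rw [mul_assoc, hN], ← Finset.mul_sum, hN]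
    ring
  have hΔZ : ∀ x : GL (Fin 2) (v.adicCompletion K),
      Δ (x * diag129 ϖ ϖ hϖ0 hϖ0) = b * Δ x := by
    intro x
    simp only [hΔ]
    rw [Finset.sum_congr rfl fun c _ => by
      rw [mul_assoc, scalar_comm820, ← mul_assoc, hZ], ← Finset.mul_sum, hZ]
    ring
  have hΔ0 : ∀ j : ℕ, Δ (dgl142 v ϖ hϖ0 j) = 0 := by
    intro j
    simp only [hΔ]
    rw [hecke_at_diag820 hϖ hψ1 hψ hK hN hZ hrec j, sub_self]
  have := eq_zero_of_vanish820 hϖ hψ hΔK hΔN hΔZ hΔ0 x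
  simp only [hΔ] at this
  exact sub_eq_zero.1 this

end Fermat.Agent.LT.A2.H820

end
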